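import Fermat.Agent.S55.E1.SpecAlg3
import Fermat.Agent.S55.H783.Shift

/-!
# S55 engine E1, block ALG, leaf ALG9 (helper298)

The edge map `δ' : H¹(G, 𝔹) → H²(G, Hom_ℤ(N, X))` of
`0 → Hom_ℤ(N, X) → Hom_ℤ(P, X) → 𝔹 → 0` (`P = ℤ[G]^{(N)}`) is bijective.

* `ihomFreeLEquiv` : `Hom_k(k[G]^{(α)}, X) ≃ₗ[k] (G → (α → X))`,
  `φ ↦ (x ↦ (a ↦ x • φ(x⁻¹ • e_a)))`;
* `ihomFreeIsoFunRep` : `Hom_k(k[G]^{(α)}, X) ≅ funRep k G (α → X)` (coinduced), for ANY group `G`;
* `isZero_groupCohomology_ihom_free` : `Hⁿ⁺¹(G, Hom_k(k[G]^{(α)}, X)) = 0`;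
* `alg9 : ALG9Spec`.
-/

set_option autoImplicit false

open CategoryTheory CategoryTheory.Limits

namespace Fermat.Agent.S55.E1.H298

open Fermat.Agent.S55.E1

noncomputable section

section IhomFree

variable (k G α : Type) [CommRing k] [Group G] (X : Rep.{0} k G)

/-- The basis vector `g • e_a` of `k[G]^{(α)}`. -/
def freeBasisVec (a : α) (g : G) : (Rep.free k G α).V :=
  Finsupp.single a (MonoidAlgebra.single g (1 : k))

lemma free_ρ_freeBasisVec (h : G) (a : α) (g : G) :
    (Rep.free k G α).ρ h (freeBasisVec k G α a g) = freeBasisVec k G α a (h * g) := by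
  unfold freeBasisVec
  exact Representation.free_single_single h g a 1

/-- The linear map `k[G]^{(α)} → V` with prescribed values on the basis `g • e_a`. -/
def freeDesc {V : Type} [AddCommGroup V] [Module k V] (F : α → G → V) :
    (α →₀ MonoidAlgebra k G) →ₗ[k] V :=
  Finsupp.lsum k (fun a => (Finsupp.linearCombination k (F a)) ∘ₗ
    (MonoidAlgebra.coeffLinearEquiv k).toLinearMap)

lemma freeDesc_freeBasisVec {V : Type} [AddCommGroup V] [Module k V] (F : α → G → V)
    (a : α) (g : G) : freeDesc k G α F (freeBasisVec k G α a g) = F a g := by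
  simp [freeDesc, freeBasisVec]

/-- Two linear maps on `k[G]^{(α)}` agreeing on the basis `g • e_a` are equal. -/
lemma free_lhom_ext {V : Type} [AddCommGroup V] [Module k V]
    {φ ψ : (α →₀ MonoidAlgebra k G) →ₗ[k] V}
    (h : ∀ (a : α) (g : G), φ (freeBasisVec k G α a g) = ψ (freeBasisVec k G α a g)) :
    φ = ψ := by
  apply Finsupp.lhom_ext
  intro a m
  induction m using MonoidAlgebra.induction_linear with
  | zero => simp
  | add f₁ f₂ h₁ h₂ => rw [Finsupp.single_add, map_add, map_add, h₁, h₂]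
  | single g c =>
    have e : (Finsupp.single a (MonoidAlgebra.single g c) : α →₀ MonoidAlgebra k G) =
        c • freeBasisVec k G α a g := by
      unfold freeBasisVec
      rw [Finsupp.smul_single, MonoidAlgebra.smul_single, smul_eq_mul, mul_one]
    rw [e, map_smul, map_smul, h]

/-- `Hom_k(k[G]^{(α)}, X) ≃ₗ[k] (G → (α → X))`, `φ ↦ (x ↦ (a ↦ x • φ(x⁻¹ • e_a)))`. -/
def ihomFreeLEquiv :
    ((Rep.ihom (Rep.free k G α)).obj X).V ≃ₗ[k] (G → (α → X.V)) where
  toFun φ := fun x a => X.ρ x (T.H719.ihomLin φ (freeBasisVec k G α a x⁻¹))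
  map_add' φ ψ := by
    funext x a
    change X.ρ x ((T.H719.ihomLin φ + T.H719.ihomLin ψ) (freeBasisVec k G α a x⁻¹)) = _
    rw [LinearMap.add_apply, map_add]
    rfl
  map_smul' c φ := by
    funext x a
    change X.ρ x ((c • T.H719.ihomLin φ) (freeBasisVec k G α a x⁻¹)) = _
    rw [LinearMap.smul_apply, map_smul]
    rfl
  invFun f := T.H719.ihomMk (freeDesc k G α (fun a g => X.ρ g (f g⁻¹ a)))
  left_inv φ := by
    apply free_lhom_ext
    intro a g
    change freeDesc k G α _ (freeBasisVec k G α a g) = _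
    rw [freeDesc_freeBasisVec]
    change X.ρ g (X.ρ g⁻¹ (T.H719.ihomLin φ (freeBasisVec k G α a g⁻¹⁻¹))) = _
    rw [inv_inv, ← Module.End.mul_apply, ← map_mul, mul_inv_cancel, map_one,
      Module.End.one_apply]
  right_inv f := by
    funext x a
    change X.ρ x (freeDesc k G α _ (freeBasisVec k G α a x⁻¹)) = _
    rw [freeDesc_freeBasisVec, inv_inv, ← Module.End.mul_apply, ← map_mul, mul_inv_cancel,
      map_one, Module.End.one_apply]

lemma ihomFreeLEquiv_apply (φ : ((Rep.ihom (Rep.free k G α)).obj X).V) (x : G) (a : α) :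
    ihomFreeLEquiv k G α X φ x a = X.ρ x (T.H719.ihomLin φ (freeBasisVec k G α a x⁻¹)) := rfl

lemma ihomFreeLEquiv_equivariant (g : G) (φ : ((Rep.ihom (Rep.free k G α)).obj X).V) :
    ihomFreeLEquiv k G α X (((Rep.ihom (Rep.free k G α)).obj X).ρ g φ)
      = Fermat.Agent.S55.H783.funRho k G (α → X.V) g (ihomFreeLEquiv k G α X φ) := by
  funext x a
  rw [Fermat.Agent.S55.H783.funRho_apply, ihomFreeLEquiv_apply, ihomFreeLEquiv_apply,
    T.H719.ihom_ρ_apply, free_ρ_freeBasisVec, mul_inv_rev, map_mul, Module.End.mul_apply]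

/-- `Hom_k(k[G]^{(α)}, X)` is coinduced (for any group `G`). -/
def ihomFreeIsoFunRep :
    (Rep.ihom (Rep.free k G α)).obj X ≅ Fermat.Agent.S55.H783.funRep k G (α → X.V) :=
  Rep.mkIso
    { toLinearEquiv := ihomFreeLEquiv k G α X
      isIntertwining' := fun g => by
        apply LinearMap.ext
        intro φ
        exact ihomFreeLEquiv_equivariant k G α X g φ }

/-- `Hⁿ⁺¹(G, Hom_k(k[G]^{(α)}, X)) = 0`. -/
theorem isZero_groupCohomology_ihom_free (n : ℕ) :
    IsZero (groupCohomology ((Rep.ihom (Rep.free k G α)).obj X) (n + 1)) :=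
  (Fermat.Agent.S55.H783.isZero_funRep (k := k) (G := G) (α → X.V) n).of_iso
    ((groupCohomology.functor k G (n + 1)).mapIso (ihomFreeIsoFunRep k G α X))

end IhomFree

section Alg9

/-- **ALG9.** The edge map `δ' : H¹(G, 𝔹) → H²(G, Hom_ℤ(N, X))` is bijective
(for any group `G`; finiteness is not needed). -/
theorem edgeδ_bijective {G : Type} [Group G] (N X : Rep.{0} ℤ G) :
    Function.Bijective (edgeδ N X) := by
  have h := groupCohomology.isIso_δ_of_isZero (edgeSC_shortExact N X) 1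
    (isZero_groupCohomology_ihom_free ℤ G N.V X 0)
    (isZero_groupCohomology_ihom_free ℤ G N.V X 1)
  exact (ConcreteCategory.isIso_iff_bijective _).mp h

/-- **ALG9.** -/
theorem alg9 : ALG9Spec := by
  intro G _ _ N X
  exact edgeδ_bijective N X

end Alg9

end

end Fermat.Agent.S55.E1.H298
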